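import Fermat.Agent.S17.HeightSpec
import Fermat.Agent.S17.WMW.Main

/-!
# S17 : Mordell-Weil for `J₀(N)` from the two halves
-/

set_option autoImplicit false

open ModularCurve AlgebraicCurve

namespace Fermat.Agent.S17

/-- the absolute Galois group of `ℚ`. -/
local notation "GQ" => (AlgebraicClosure ℚ ≃ₐ[ℚ] AlgebraicClosure ℚ)

theorem mordellWeil (N : ℕ) [NeZero N] :
    AddGroup.FG ↥(FixedPoints.addSubgroup GQ (JZero N)) := by
  obtain ⟨q, hq0, ⟨C, hC⟩, hN⟩ := exists_height_JZero N
  let h : ↥(FixedPoints.addSubgroup GQ (JZero N)) → ℝ := fun x => q x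
  have hnc : Northcott h := by
    refine ⟨fun B => ?_⟩
    have := (hN B).preimage (f := fun x : ↥(FixedPoints.addSubgroup GQ (JZero N)) => (x : JZero N))
      Subtype.val_injective.injOn
    refine this.subset ?_
    intro x hx
    exact ⟨fun σ => x.2 σ, hx⟩
  exact AddCommGroup.fg_of_descent' (h := h) (C := C) (WMW.weakMW N) (fun x => hq0 _)
    (fun x y => hC _ _)

end Fermat.Agent.S17
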