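import Fermat.Agent.S17.WMW.Geom
import Fermat.Agent.S17.El.Glob.Main

/-!
# S17 : interface of the height half
-/

set_option autoImplicit false

open ModularCurve AlgebraicCurve

namespace Fermat.Agent.S17

/-- `ℚ̄`. -/
local notation "Qb" => AlgebraicClosure ℚ
/-- the absolute Galois group of `ℚ`. -/
local notation "GQ" => (AlgebraicClosure ℚ ≃ₐ[ℚ] AlgebraicClosure ℚ)

/-- **the height half of Mordell-Weil**, abstract form: `F / ℚ̄` a function field with a semilinear
action of `G_ℚ` fixing a non constant function `j`. -/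
theorem exists_quadratic_height {F : Type} [Field F] [Algebra Qb F] [S27.IsFF Qb F]
    (ρ : GQ →* SemilinearAut Qb F) (hρ : ∀ σ, SemilinearAut.baseAut (ρ σ) = σ.toRingEquiv)
    (j : F) (hj : j ∉ Set.range (algebraMap Qb F)) (hjρ : ∀ σ, ρ σ • j = j) :
    ∃ q : Pic0 Qb F → ℝ, (∀ x, 0 ≤ q x) ∧
      (∃ C : ℝ, ∀ x y, |q (x + y) + q (x - y) - 2 * (q x + q y)| ≤ C) ∧
      ∀ B : ℝ, {x : Pic0 Qb F | (∀ σ, ρ σ • x = x) ∧ q x ≤ B}.Finite :=
  El.exists_quadratic_height_E ρ hρ j hj hjρ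

/-- the height half for `J₀(N)`. -/
theorem exists_height_JZero (N : ℕ) [NeZero N] :
    ∃ q : JZero N → ℝ, (∀ x, 0 ≤ q x) ∧
      (∃ C : ℝ, ∀ x y, |q (x + y) + q (x - y) - 2 * (q x + q y)| ≤ C) ∧
      ∀ B : ℝ, {x : JZero N | (∀ σ : GQ, σ • x = x) ∧ q x ≤ B}.Finite := by
  have hj : S24.jF N ∉ Set.range (algebraMap Qb (modularFunctionFieldBar N)) := by
    rintro ⟨c, hc⟩
    apply S24.transcendental_jF N
    rw [← hc]
    exact isAlgebraic_algebraMap c
  have hjρ : ∀ σ : GQ, arithmeticGalois (modularFunctionFieldFull N) σ • S24.jF N = S24.jF N := by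
    intro σ
    apply Subtype.ext
    rw [coe_arithmeticGalois_smul]
    exact coeffMap_coeffEmb σ _
  exact exists_quadratic_height (arithmeticGalois (modularFunctionFieldFull N))
    (fun σ => baseAut_arithmeticGalois _ σ) (S24.jF N) hj hjρ

end Fermat.Agent.S17
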